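import Fermat.Agent.S27.Lift.H68_Jacobi

/-!
# S27, pure algebra (helper68): Newton's identities for `det (1 - X A)` and companion matrices

* `succ_mul_coeff_charpolyRev`: for `P = det (1 - X A) = A.charpolyRev`,
  `(j+1) p_{j+1} = - ∑_{m ≤ j} tr (A^{m+1}) p_{j-m}`  (i.e. `X P' = - P ∑_{m ≥ 1} tr(A^m) X^m`).
* `coeff_eq_of_newton`: a sequence with `l_0 = 1` satisfying the same recursion over a ring
  without `ℕ`-torsion is the coefficient sequence of `A.charpolyRev`.
* `exists_matrix_charpoly_eq`: every monic polynomial of degree `d` is the characteristic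
  polynomial of a `d × d` matrix;
* `exists_matrix_charpolyRev_eq`: every polynomial `L` with `L(0) = 1` and `natDegree L = d` is
  `det (1 - X A)` for a `d × d` matrix `A` with `det A = (-1)^d * leadingCoeff L`.
-/

set_option linter.style.haveILetI false
set_option linter.unusedSectionVars false

namespace Fermat.Agent.S27.Lift.H68

open Polynomial Matrix

variable {R : Type*} [CommRing R] {n : Type*} [Fintype n] [DecidableEq n]

/-- The matrix `1 - X A` over `R[X]`. -/
noncomputable def oneSubXMat (A : Matrix n n R) : Matrix n n R[X] :=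
  1 - (X : R[X]) • A.map C

lemma charpolyRev_eq_det (A : Matrix n n R) : A.charpolyRev = (oneSubXMat A).det := rfl

lemma map_derivative_oneSubXMat (A : Matrix n n R) :
    (oneSubXMat A).map (Polynomial.derivative) = - A.map C := by
  ext i j : 1
  simp only [oneSubXMat, Matrix.map_apply, Matrix.sub_apply, Matrix.smul_apply, smul_eq_mul,
    Matrix.neg_apply, Polynomial.derivative_sub, Polynomial.derivative_mul,
    Polynomial.derivative_X, Polynomial.derivative_C, one_mul, mul_zero, add_zero]
  by_cases h : i = j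
  · subst h; simp
  · simp [Matrix.one_apply_ne h]

/-- Jacobi: `P' = - tr (adj (1 - X A) * A)` for `P = det (1 - X A)`. -/
lemma derivative_charpolyRev (A : Matrix n n R) :
    Polynomial.derivative A.charpolyRev = - Matrix.trace ((oneSubXMat A).adjugate * A.map C) := by
  have h := derivation_det (R := R) (A := R[X]) (Polynomial.derivative' (R := R)) (oneSubXMat A)
  have h2 : (oneSubXMat A).map (Polynomial.derivative' (R := R)) = - A.map C :=
    map_derivative_oneSubXMat A
  rw [h2] at h
  rw [charpolyRev_eq_det]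
  simpa [Matrix.mul_neg, Matrix.trace_neg] using h


lemma adjugate_oneSubXMat_eq (A : Matrix n n R) (N : ℕ) :
    (oneSubXMat A).adjugate =
      A.charpolyRev • (∑ m ∈ Finset.range N, ((X : R[X]) • A.map C) ^ m) +
        (oneSubXMat A).adjugate * ((X : R[X]) • A.map C) ^ N := by
  have h1 : oneSubXMat A * (∑ m ∈ Finset.range N, ((X : R[X]) • A.map C) ^ m) =
      1 - ((X : R[X]) • A.map C) ^ N := by
    rw [oneSubXMat]
    exact mul_neg_geom_sum _ _
  have h2 : (oneSubXMat A).adjugate * oneSubXMat A = A.charpolyRev • (1 : Matrix n n R[X]) := by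
    rw [Matrix.adjugate_mul, charpolyRev_eq_det]
  have h3 := congrArg (fun Y => (oneSubXMat A).adjugate * Y) h1
  simp only [← mul_assoc, h2, mul_sub, mul_one, Matrix.smul_mul, one_mul] at h3
  rw [h3]
  abel

lemma map_C_pow (A : Matrix n n R) (m : ℕ) : (A.map C) ^ m = (A ^ m).map (C : R → R[X]) := by
  have := (RingHom.mapMatrix (C : R →+* R[X])).map_pow A m
  exact this.symm

lemma trace_map_C (A : Matrix n n R) : Matrix.trace (A.map (C : R → R[X])) = C A.trace := by
  simp [Matrix.trace, map_sum]

/-- `P' = - P ∑_{m<N} tr(A^{m+1}) X^m - X^N T` for `P = det (1 - X A)`. -/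
lemma derivative_charpolyRev_eq (A : Matrix n n R) (N : ℕ) :
    ∃ T : R[X], Polynomial.derivative A.charpolyRev =
      - (A.charpolyRev * ∑ m ∈ Finset.range N, C (A ^ (m + 1)).trace * X ^ m) - X ^ N * T := by
  refine ⟨Matrix.trace ((oneSubXMat A).adjugate * (A.map C) ^ N * A.map C), ?_⟩
  rw [derivative_charpolyRev]
  conv_lhs => rw [adjugate_oneSubXMat_eq A N]
  rw [add_mul, Matrix.trace_add, neg_add, sub_eq_add_neg]
  congr 1
  · rw [Matrix.smul_mul, Matrix.trace_smul, smul_eq_mul, Finset.sum_mul, Matrix.trace_sum]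
    congr 2
    refine Finset.sum_congr rfl fun m _ => ?_
    rw [_root_.smul_pow, Matrix.smul_mul, Matrix.trace_smul, smul_eq_mul, ← pow_succ, map_C_pow,
      trace_map_C, mul_comm]
  · rw [_root_.smul_pow, Matrix.mul_smul, Matrix.smul_mul, Matrix.trace_smul, smul_eq_mul]

/-- **Newton's identities for `det (1 - X A)`**:
`(j+1) p_{j+1} = - ∑_{m ≤ j} tr(A^{m+1}) p_{j-m}`. -/
theorem succ_mul_coeff_charpolyRev (A : Matrix n n R) (j : ℕ) :
    ((j : R) + 1) * A.charpolyRev.coeff (j + 1) =
      - ∑ m ∈ Finset.range (j + 1), (A ^ (m + 1)).trace * A.charpolyRev.coeff (j - m) := by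
  obtain ⟨T, hT⟩ := derivative_charpolyRev_eq A (j + 1)
  have h := congrArg (fun p : R[X] => p.coeff j) hT
  simp only [Polynomial.coeff_derivative, Polynomial.coeff_sub, Polynomial.coeff_neg,
    Polynomial.coeff_X_pow_mul'] at h
  rw [if_neg (by omega), sub_zero] at h
  rw [mul_comm, h, neg_inj, Finset.mul_sum, Polynomial.finsetSum_coeff]
  refine Finset.sum_congr rfl fun m hm => ?_
  have hm' : m ≤ j := Nat.lt_succ_iff.mp (Finset.mem_range.mp hm)
  rw [← mul_assoc, mul_comm A.charpolyRev, mul_assoc, Polynomial.coeff_C_mul,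
    Polynomial.coeff_mul_X_pow', if_pos hm']

/-- Uniqueness for the Newton recursion over a ring without `ℕ`-torsion. -/
theorem coeff_eq_of_newton [IsDomain R] [CharZero R] (A : Matrix n n R) (l : ℕ → R) (h0 : l 0 = 1)
    (hrec : ∀ j : ℕ, ((j : R) + 1) * l (j + 1) =
      - ∑ m ∈ Finset.range (j + 1), (A ^ (m + 1)).trace * l (j - m)) :
    ∀ j, l j = A.charpolyRev.coeff j := by
  intro j
  induction j using Nat.strong_induction_on with
  | _ j ih =>
    rcases j with _ | j
    · rw [h0, Polynomial.coeff_zero_eq_eval_zero, Matrix.eval_charpolyRev]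
    · have h1 := hrec j
      have h2 := succ_mul_coeff_charpolyRev A j
      have h3 : ∑ m ∈ Finset.range (j + 1), (A ^ (m + 1)).trace * l (j - m) =
          ∑ m ∈ Finset.range (j + 1), (A ^ (m + 1)).trace * A.charpolyRev.coeff (j - m) := by
        refine Finset.sum_congr rfl fun m hm => ?_
        rw [ih (j - m) (by omega)]
      rw [h3, ← h2] at h1
      have hne : ((j : R) + 1) ≠ 0 := by
        have : ((j + 1 : ℕ) : R) ≠ 0 := Nat.cast_ne_zero.mpr (Nat.succ_ne_zero j)
        simpa using this
      exact mul_left_cancel₀ hne h1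

section companion

variable {R : Type*} [CommRing R]

/-- Every monic polynomial is a characteristic polynomial (multiplication by the root on
`AdjoinRoot f`). -/
theorem exists_matrix_charpoly_eq [Nontrivial R] (f : R[X]) (hf : f.Monic) :
    ∃ A : Matrix (Fin f.natDegree) (Fin f.natDegree) R, A.charpoly = f := by
  classical
  let pb := AdjoinRoot.powerBasis' hf
  let A : Matrix (Fin f.natDegree) (Fin f.natDegree) R :=
    Algebra.leftMulMatrix pb.basis (AdjoinRoot.root f)
  refine ⟨A, ?_⟩
  have hCH : Polynomial.aeval A A.charpoly = 0 := Matrix.aeval_self_charpoly A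
  have h1 : Algebra.leftMulMatrix pb.basis (Polynomial.aeval (AdjoinRoot.root f) A.charpoly) = 0 := by
    rw [← Polynomial.aeval_algHom_apply]
    exact hCH
  have h2 : Polynomial.aeval (AdjoinRoot.root f) A.charpoly = 0 :=
    (Algebra.leftMulMatrix_injective pb.basis) (by rw [h1, map_zero])
  have h3 : f ∣ A.charpoly := by
    rw [← AdjoinRoot.mk_eq_zero, ← AdjoinRoot.aeval_eq]
    exact h2
  have hmon : A.charpoly.Monic := Matrix.charpoly_monic A
  have hdeg : A.charpoly.natDegree = f.natDegree := by
    rw [Matrix.charpoly_natDegree_eq_dim, Fintype.card_fin]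
  obtain ⟨q, hq⟩ := h3
  have hqmon : q.Monic := by
    have := hmon
    rw [hq] at this
    exact hf.of_mul_monic_left this
  have hqdeg : q.natDegree = 0 := by
    have := congrArg Polynomial.natDegree hq
    rw [hf.natDegree_mul hqmon, hdeg] at this
    omega
  have hq1 : q = 1 := by
    rw [Polynomial.eq_C_of_natDegree_eq_zero hqdeg] at hqmon ⊢
    have : q.coeff 0 = 1 := by
      have h := hqmon.leadingCoeff
      rwa [Polynomial.leadingCoeff_C] at h
    rw [this, map_one]
  rw [hq, hq1, mul_one]

/-- Version with a prescribed size. -/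
theorem exists_matrix_charpoly_eq' [Nontrivial R] (f : R[X]) (hf : f.Monic) (d : ℕ)
    (hd : f.natDegree = d) : ∃ A : Matrix (Fin d) (Fin d) R, A.charpoly = f := by
  subst hd
  exact exists_matrix_charpoly_eq f hf

/-- Every polynomial `L` with `L(0) = 1` and `natDegree L = d` is `det (1 - X A)` for a
`d × d` matrix `A`, and `det A = (-1)^d * leadingCoeff L`. -/
theorem exists_matrix_charpolyRev_eq [Nontrivial R] (L : R[X]) (h0 : L.coeff 0 = 1) (d : ℕ)
    (hd : L.natDegree = d) :
    ∃ A : Matrix (Fin d) (Fin d) R, A.charpolyRev = L ∧ A.det = (-1) ^ d * L.leadingCoeff := by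
  have hne : L.coeff 0 ≠ 0 := by rw [h0]; exact one_ne_zero
  have htr : L.natTrailingDegree = 0 := by
    by_contra h
    exact hne (Polynomial.coeff_eq_zero_of_lt_natTrailingDegree (Nat.pos_of_ne_zero h))
  have hmon : L.reverse.Monic := by
    rw [Polynomial.Monic, Polynomial.reverse_leadingCoeff, Polynomial.trailingCoeff, htr, h0]
  have hdeg : L.reverse.natDegree = d := by
    rw [Polynomial.reverse_natDegree, htr, Nat.sub_zero, hd]
  obtain ⟨A, hA⟩ := exists_matrix_charpoly_eq' L.reverse hmon d hdeg
  refine ⟨A, ?_, ?_⟩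
  · rw [← Matrix.reverse_charpoly, hA]
    ext i
    rw [Polynomial.coeff_reverse, hdeg, Polynomial.coeff_reverse, hd, Polynomial.revAt_invol]
  · rw [Matrix.det_eq_sign_charpoly_coeff, hA, Polynomial.coeff_zero_reverse, Fintype.card_fin]

end companion

end Fermat.Agent.S27.Lift.H68
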