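import Mathlib

/-!
# S27 / LIFT, pure algebra (helper68): interpolation

Let `O` be a local ring with infinite residue field, `E` an `O`-algebra and `W` an
`O`-submodule of `E`.  A polynomial with coefficients in `E` all of whose values at points
of `O` lie in `W` has all its coefficients in `W` (Vandermonde with unit determinant).

* `Polynomial` version: `polynomial_coeff_mem_of_eval_mem`;
* `MvPolynomial` version: `mvPolynomial_coeff_mem_of_eval_mem`.
-/

set_option linter.style.haveILetI false
set_option linter.unusedSectionVars false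

namespace Fermat.Agent.S27.Lift.H68

open MvPolynomial

section interp

variable {O E : Type*} [CommRing O] [IsLocalRing O] [Infinite (IsLocalRing.ResidueField O)]
  [CommRing E] [Algebra O E] (W : Submodule O E)

/-- There are arbitrarily many elements of `O` with pairwise unit differences. -/
lemma exists_unit_diff (n : ℕ) :
    ∃ t : Fin n → O, ∀ i j, i ≠ j → IsUnit (t j - t i) := by
  classical
  obtain ⟨s, hs⟩ : ∃ s : Fin n → IsLocalRing.ResidueField O, Function.Injective s :=
    ⟨_, (Infinite.natEmbedding (IsLocalRing.ResidueField O)).injective.comp Fin.val_injective⟩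
  choose t ht using fun i => IsLocalRing.residue_surjective (s i)
  refine ⟨t, fun i j hij => ?_⟩
  by_contra hnu
  have h1 : t j - t i ∈ IsLocalRing.maximalIdeal O := (IsLocalRing.mem_maximalIdeal _).mpr hnu
  have h2 : IsLocalRing.residue O (t j - t i) = 0 := (IsLocalRing.residue_eq_zero_iff _).mpr h1
  rw [map_sub, ht, ht, sub_eq_zero] at h2
  exact hij (hs h2).symm

/-- One variable: values in `W` on `O` imply coefficients in `W`. -/
theorem polynomial_coeff_mem_of_eval_mem (P : Polynomial E)
    (h : ∀ t : O, P.eval (algebraMap O E t) ∈ W) (i : ℕ) : P.coeff i ∈ W := by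
  classical
  by_cases hi : i < P.natDegree + 1
  swap
  · rw [Polynomial.coeff_eq_zero_of_natDegree_lt (by omega)]
    exact W.zero_mem
  obtain ⟨t, ht⟩ := exists_unit_diff (O := O) (P.natDegree + 1)
  let V : Matrix (Fin (P.natDegree + 1)) (Fin (P.natDegree + 1)) O := Matrix.vandermonde t
  have hdet : IsUnit V.det := by
    rw [Matrix.det_vandermonde]
    refine IsUnit.prod_univ_iff.mpr fun a => ?_
    refine (IsUnit.prod_iff).mpr fun b hb => ?_
    exact ht a b (ne_of_lt (Finset.mem_Ioi.mp hb))
  have hVinv : V⁻¹ * V = 1 := Matrix.nonsing_inv_mul V hdet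
  -- values as linear combinations of coefficients
  have hval : ∀ l : Fin (P.natDegree + 1),
      P.eval (algebraMap O E (t l)) = ∑ a : Fin (P.natDegree + 1), V l a • P.coeff a := by
    intro l
    rw [Polynomial.eval_eq_sum_range,
      Finset.sum_range fun a => P.coeff a * algebraMap O E (t l) ^ a]
    refine Finset.sum_congr rfl fun a _ => ?_
    change _ = Matrix.vandermonde t l a • _
    rw [Matrix.vandermonde_apply, Algebra.smul_def, map_pow, mul_comm]
  have hcoeff : P.coeff i =
      ∑ l : Fin (P.natDegree + 1), V⁻¹ ⟨i, hi⟩ l • P.eval (algebraMap O E (t l)) := by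
    simp_rw [hval, Finset.smul_sum, smul_smul]
    rw [Finset.sum_comm]
    simp_rw [← Finset.sum_smul, ← Matrix.mul_apply, hVinv, Matrix.one_apply]
    simp
  rw [hcoeff]
  exact W.sum_mem fun l _ => W.smul_mem _ (h (t l))

/-- `Fin n` variables: values in `W` on `O^n` imply coefficients in `W`. -/
theorem mvPolynomial_fin_coeff_mem_of_eval_mem : ∀ (n : ℕ) (P : MvPolynomial (Fin n) E),
    (∀ t : Fin n → O, eval (fun i => algebraMap O E (t i)) P ∈ W) → ∀ m, coeff m P ∈ W := by
  intro n
  induction n with
  | zero =>
    intro P h m
    have hm : m = 0 := Subsingleton.elim _ _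
    have hP : P = C (coeff 0 P) := MvPolynomial.eq_C_of_isEmpty P
    have := h (fun i => i.elim0)
    rw [hP, eval_C] at this
    rw [hm]
    exact this
  | succ n ih =>
    intro P h m
    have key : ∀ i : ℕ, ∀ s : Fin n → O,
        eval (fun j => algebraMap O E (s j)) (Polynomial.coeff (finSuccEquiv E n P) i) ∈ W := by
      intro i s
      rw [← MvPolynomial.coeff_eval_eq_eval_coeff]
      apply polynomial_coeff_mem_of_eval_mem W
      intro y
      rw [← MvPolynomial.eval_eq_eval_mv_eval']
      have : (Fin.cons (algebraMap O E y) (fun j => algebraMap O E (s j)) : Fin (n + 1) → E) =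
          fun j => algebraMap O E ((Fin.cons y s : Fin (n + 1) → O) j) := by
        funext j
        refine Fin.cases ?_ (fun j' => ?_) j <;> simp
      rw [this]
      exact h _
    have := ih (Polynomial.coeff (finSuccEquiv E n P) (m 0)) (key (m 0)) (Finsupp.tail m)
    rw [MvPolynomial.finSuccEquiv_coeff_coeff, Finsupp.cons_tail] at this
    exact this

/-- Finitely many variables: a polynomial with coefficients in `E` whose values on `O^σ` lie in
the `O`-submodule `W` has its coefficients in `W`. -/
theorem mvPolynomial_coeff_mem_of_eval_mem {σ : Type*} [Finite σ] (P : MvPolynomial σ E)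
    (h : ∀ t : σ → O, eval (fun i => algebraMap O E (t i)) P ∈ W) (m : σ →₀ ℕ) :
    coeff m P ∈ W := by
  classical
  haveI := Fintype.ofFinite σ
  let e : σ ≃ Fin (Fintype.card σ) := Fintype.equivFin σ
  have h1 : ∀ t : Fin (Fintype.card σ) → O,
      eval (fun i => algebraMap O E (t i)) (rename e P) ∈ W := by
    intro t
    rw [eval_rename]
    exact h fun i => t (e i)
  have h2 := mvPolynomial_fin_coeff_mem_of_eval_mem W _ (rename e P) h1 (Finsupp.mapDomain e m)
  rwa [coeff_rename_mapDomain e e.injective] at h2

end interp

end Fermat.Agent.S27.Lift.H68
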