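import Mathlib

/-!
# S27 / LIFT, pure algebra (helper68): Jacobi's formula

* `derivation_prod`: Leibniz rule for finite products.
* `derivation_det`: **Jacobi's formula** `D (det P) = tr (adj P * D P)` for a derivation `D`.
* `pencil`, `normForm`: the determinant of the generic linear combination `∑ X_j M_j` as a
  multivariate polynomial; its values and the values of its partial derivatives.
* `eval_pderiv_normForm_leftMul`: for a finite free algebra, the derivative of the norm form
  `t ↦ N (∑ t_j f_j)` at a point where `h = ∑ t_j f_j` is invertible is `N h * Tr (f_j / h)`.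
-/

set_option linter.style.haveILetI false
set_option linter.unusedSectionVars false

namespace Fermat.Agent.S27.Lift.H68

open MvPolynomial Matrix

section derivation

variable {R A : Type*} [CommRing R] [CommRing A] [Algebra R A]

/-- Leibniz rule for finite products. -/
theorem derivation_prod (D : Derivation R A A) {ι : Type*} [DecidableEq ι] (s : Finset ι)
    (f : ι → A) : D (∏ i ∈ s, f i) = ∑ j ∈ s, (∏ i ∈ s.erase j, f i) * D (f j) := by
  induction s using Finset.induction_on with
  | empty => simp
  | insert a s ha ih =>
    rw [Finset.prod_insert ha, Derivation.leibniz, ih, Finset.sum_insert ha,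
      Finset.erase_insert ha, smul_eq_mul, smul_eq_mul, add_comm]
    congr 1
    rw [Finset.mul_sum]
    refine Finset.sum_congr rfl fun j hj => ?_
    have hja : j ≠ a := fun h => ha (h ▸ hj)
    rw [Finset.erase_insert_of_ne (Ne.symm hja), Finset.prod_insert (by
      simp only [Finset.mem_erase]; exact fun h => ha h.2), mul_assoc]

variable {n : Type*} [Fintype n] [DecidableEq n]

/-- **Jacobi's formula**: `D (det P) = ∑_j det (P with column j replaced by its derivative)`. -/
theorem derivation_det_eq_sum_updateCol (D : Derivation R A A) (P : Matrix n n A) :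
    D P.det = ∑ j, (P.updateCol j fun a => D (P a j)).det := by
  simp only [Matrix.det_apply, map_sum]
  rw [Finset.sum_comm]
  refine Finset.sum_congr rfl fun σ _ => ?_
  rw [Units.smul_def, map_zsmul, derivation_prod, Finset.smul_sum]
  refine Finset.sum_congr rfl fun j _ => ?_
  rw [Units.smul_def]
  congr 1
  rw [← Finset.mul_prod_erase Finset.univ _ (Finset.mem_univ j), Matrix.updateCol_self, mul_comm]
  congr 1
  refine Finset.prod_congr rfl fun i hi => ?_
  rw [Matrix.updateCol_ne (Finset.ne_of_mem_erase hi)]

/-- **Jacobi's formula**: `D (det P) = tr (adj P * D P)`. -/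
theorem derivation_det (D : Derivation R A A) (P : Matrix n n A) :
    D P.det = Matrix.trace (P.adjugate * P.map D) := by
  rw [derivation_det_eq_sum_updateCol, Matrix.trace]
  refine Finset.sum_congr rfl fun j _ => ?_
  rw [← Matrix.cramer_apply, Matrix.cramer_eq_adjugate_mulVec]
  simp [Matrix.mulVec, dotProduct, Matrix.mul_apply]

end derivation

section pencil

variable {R : Type*} [CommRing R] {σ : Type*} [Fintype σ] {n : Type*} [Fintype n] [DecidableEq n]

/-- The generic linear combination `∑_j X_j M_j`. -/
noncomputable def pencil (M : σ → Matrix n n R) : Matrix n n (MvPolynomial σ R) :=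
  ∑ j, (X j : MvPolynomial σ R) • (M j).map C

/-- The determinant of the generic linear combination `∑_j X_j M_j`. -/
noncomputable def normForm (M : σ → Matrix n n R) : MvPolynomial σ R :=
  (pencil M).det

lemma pencil_apply (M : σ → Matrix n n R) (a b : n) :
    pencil M a b = ∑ j, X j * C (M j a b) := by
  simp [pencil, Matrix.sum_apply]

lemma map_pencil {S : Type*} [CommRing S] (φ : R →+* S) (M : σ → Matrix n n R) :
    (pencil M).map (MvPolynomial.map φ) = pencil fun j => (M j).map φ := by
  ext a b : 1
  simp [pencil_apply]

lemma map_normForm {S : Type*} [CommRing S] (φ : R →+* S) (M : σ → Matrix n n R) :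
    MvPolynomial.map φ (normForm M) = normForm fun j => (M j).map φ := by
  rw [normForm, normForm, ← map_pencil, RingHom.map_det]
  rfl

lemma eval_pencil (M : σ → Matrix n n R) (t : σ → R) :
    (pencil M).map (eval t) = ∑ j, t j • M j := by
  ext a b : 1
  simp [pencil_apply, Matrix.sum_apply]

lemma eval_normForm (M : σ → Matrix n n R) (t : σ → R) :
    eval t (normForm M) = (∑ j, t j • M j).det := by
  rw [normForm, RingHom.map_det, ← eval_pencil]
  rfl

lemma pderiv_pencil [DecidableEq σ] (M : σ → Matrix n n R) (j : σ) :
    (pencil M).map (pderiv j) = (M j).map C := by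
  ext a b : 1
  simp only [Matrix.map_apply, pencil_apply, map_sum, Derivation.leibniz, pderiv_C,
    pderiv_X, smul_eq_mul]
  simp [Pi.single_apply]

/-- The partial derivatives of the norm form (Jacobi's formula). -/
lemma pderiv_normForm [DecidableEq σ] (M : σ → Matrix n n R) (j : σ) :
    pderiv j (normForm M) = Matrix.trace ((pencil M).adjugate * (M j).map C) := by
  rw [normForm, derivation_det, pderiv_pencil]

lemma eval_pderiv_normForm [DecidableEq σ] (M : σ → Matrix n n R) (t : σ → R) (j : σ) :
    eval t (pderiv j (normForm M)) = Matrix.trace ((∑ i, t i • M i).adjugate * M j) := by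
  have h1 : ∀ Y : Matrix n n (MvPolynomial σ R),
      eval t Y.trace = ((eval t).mapMatrix Y).trace := by
    intro Y
    simp [Matrix.trace, map_sum]
  have h2 : (eval t).mapMatrix ((M j).map C) = M j := by
    ext a b : 1
    simp
  have h3 : (eval t).mapMatrix (pencil M) = ∑ i, t i • M i := eval_pencil M t
  rw [pderiv_normForm, h1, map_mul, RingHom.map_adjugate, h2, h3]

end pencil

section norm

variable {M L : Type*} [CommRing M] [CommRing L] [Algebra M L]
  {σ : Type*} [Fintype σ] [DecidableEq σ] {n : Type*} [Fintype n] [DecidableEq n]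

/-- The norm form `t ↦ N_{L/M} (∑ t_j f_j)` as a multivariate polynomial (with respect to a
basis of `L` over `M`). -/
noncomputable def normFormAlg (β : Module.Basis n M L) (f : σ → L) : MvPolynomial σ M :=
  normForm fun j => Algebra.leftMulMatrix β (f j)

lemma leftMulMatrix_sum_smul (β : Module.Basis n M L) (f : σ → L) (t : σ → M) :
    Algebra.leftMulMatrix β (∑ j, t j • f j) = ∑ j, t j • Algebra.leftMulMatrix β (f j) := by
  simp [map_sum, map_smul]

lemma eval_normFormAlg (β : Module.Basis n M L) (f : σ → L) (t : σ → M) :
    eval t (normFormAlg β f) = Algebra.norm M (∑ j, t j • f j) := by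
  rw [normFormAlg, eval_normForm, Algebra.norm_eq_matrix_det β, leftMulMatrix_sum_smul]

/-- Derivative of the norm: `∂_j N(h_t) = N(h_t) Tr(f_j / h_t)` where `h_t = ∑ t_j f_j` has the
inverse `hinv`. -/
lemma eval_pderiv_normFormAlg (β : Module.Basis n M L) (f : σ → L) (t : σ → M) (hinv : L)
    (h1 : (∑ j, t j • f j) * hinv = 1) (j : σ) :
    eval t (pderiv j (normFormAlg β f)) =
      Algebra.norm M (∑ i, t i • f i) * Algebra.trace M L (hinv * f j) := by
  rw [normFormAlg, eval_pderiv_normForm, ← leftMulMatrix_sum_smul,
    Algebra.norm_eq_matrix_det β, Algebra.trace_eq_matrix_trace β]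
  set H := Algebra.leftMulMatrix β (∑ i, t i • f i) with hH
  have hHinv : H * Algebra.leftMulMatrix β hinv = 1 := by
    rw [hH, ← map_mul, h1, map_one]
  have hadj : H.adjugate = H.det • Algebra.leftMulMatrix β hinv := by
    calc H.adjugate = H.adjugate * (H * Algebra.leftMulMatrix β hinv) := by
          rw [hHinv, mul_one]
      _ = (H.adjugate * H) * Algebra.leftMulMatrix β hinv := by rw [mul_assoc]
      _ = H.det • Algebra.leftMulMatrix β hinv := by
          rw [Matrix.adjugate_mul, Matrix.smul_mul, one_mul]
  rw [hadj, Matrix.smul_mul, Matrix.trace_smul, smul_eq_mul, ← map_mul]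

end norm

end Fermat.Agent.S27.Lift.H68
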