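import Fermat.Agent.S27.Lift.H68_HenselInj
import Fermat.Agent.S27.Lift.H68_Jacobi

/-!
# S27 / LIFT / SOLVE (helper68): the abstract norm system

Pure algebra.  `O` valuation ring of the algebraically closed field `K`, residue map
`res : O → k`.  Given polynomials `Φ_e ∈ O[t_1..t_N]` (`e ≤ M = n g`, `N + g = M + 1`), a residual
solution `∑_e Φ~_e(τ) X^e = c~ ∏_i (X - α_i)^n` with distinct `α_i`, and injectivity of the
`t`-part of the linearised residual system, there is an exact solution
`∑_e Φ_e(t) X^e = c ∏_i (X - a_i)^n` over `O` lifting it.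
-/

set_option linter.style.haveILetI false
set_option linter.unusedSectionVars false
set_option linter.unusedSimpArgs false

namespace Fermat.Agent.S27.Lift.H68

open MvPolynomial

universe u v

section defs

variable {R : Type*} [CommRing R]

/-- The polynomial `∑_e c_e X^e`. -/
noncomputable def polyOfCoeffs (M : ℕ) (c : Fin (M + 1) → R) : Polynomial R :=
  ∑ e, Polynomial.C (c e) * Polynomial.X ^ (e : ℕ)

/-- `Π = ∏_i (X - a_i)^n`. -/
noncomputable def rootProd {g : ℕ} (n : ℕ) (a : Fin g → R) : Polynomial R :=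
  ∏ i, (Polynomial.X - Polynomial.C (a i)) ^ n

/-- `Π_i = (X - a_i)^(n-1) ∏_{i' ≠ i} (X - a_i')^n`. -/
noncomputable def rootProdErase {g : ℕ} (n : ℕ) (a : Fin g → R) (i : Fin g) : Polynomial R :=
  (Polynomial.X - Polynomial.C (a i)) ^ (n - 1) *
    ∏ i' ∈ Finset.univ.erase i, (Polynomial.X - Polynomial.C (a i')) ^ n

lemma eval_polyOfCoeffs (M : ℕ) (c : Fin (M + 1) → R) (x : R) :
    (polyOfCoeffs M c).eval x = ∑ e, c e * x ^ (e : ℕ) := by
  simp [polyOfCoeffs, Polynomial.eval_finsetSum]

lemma natDegree_polyOfCoeffs_le (M : ℕ) (c : Fin (M + 1) → R) :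
    (polyOfCoeffs M c).natDegree ≤ M := by
  refine Polynomial.natDegree_sum_le_of_forall_le _ _ fun e _ => ?_
  refine (Polynomial.natDegree_C_mul_X_pow_le _ _).trans ?_
  have := e.2
  omega

lemma map_polyOfCoeffs {S : Type*} [CommRing S] (φ : R →+* S) (M : ℕ) (c : Fin (M + 1) → R) :
    (polyOfCoeffs M c).map φ = polyOfCoeffs M fun e => φ (c e) := by
  simp [polyOfCoeffs, Polynomial.map_sum]

lemma eval_rootProd {g : ℕ} (n : ℕ) (a : Fin g → R) (x : R) :
    (rootProd n a).eval x = ∏ i, (x - a i) ^ n := by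
  simp [rootProd, Polynomial.eval_prod]

lemma eval_rootProdErase {g : ℕ} (n : ℕ) (a : Fin g → R) (i : Fin g) (x : R) :
    (rootProdErase n a i).eval x =
      (x - a i) ^ (n - 1) * ∏ i' ∈ Finset.univ.erase i, (x - a i') ^ n := by
  simp [rootProdErase, Polynomial.eval_prod]

lemma map_rootProd {S : Type*} [CommRing S] (φ : R →+* S) {g : ℕ} (n : ℕ) (a : Fin g → R) :
    (rootProd n a).map φ = rootProd n fun i => φ (a i) := by
  simp [rootProd, Polynomial.map_prod]

lemma rootProd_monic {g : ℕ} (n : ℕ) (a : Fin g → R) : (rootProd n a).Monic :=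
  Polynomial.monic_prod_of_monic _ _ fun i _ => (Polynomial.monic_X_sub_C (a i)).pow n

lemma natDegree_rootProd [Nontrivial R] {g : ℕ} (n : ℕ) (a : Fin g → R) :
    (rootProd n a).natDegree = n * g := by
  rw [rootProd, Polynomial.natDegree_prod_of_monic _ _
    (fun i _ => (Polynomial.monic_X_sub_C (a i)).pow n)]
  simp [(Polynomial.monic_X_sub_C _).natDegree_pow, mul_comm]

end defs

section system

variable {O : Type u} [CommRing O]

abbrev UnkS (N g : ℕ) : Type := Fin N ⊕ (Fin g ⊕ Unit)
abbrev EqS (M : ℕ) : Type := Fin (M + 1) ⊕ Unit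

/-- the product `∏_i (ξ - a_i)^n` in the unknowns -/
noncomputable def prodU (N : ℕ) {g : ℕ} (n : ℕ) (x : O) : MvPolynomial (UnkS N g) O :=
  ∏ i : Fin g, (C x - X (Sum.inr (Sum.inl i))) ^ n

/-- the product `(ξ - a_i)^(n-1) ∏_{i' ≠ i} (ξ - a_i')^n` in the unknowns -/
noncomputable def prodUErase (N : ℕ) {g : ℕ} (n : ℕ) (x : O) (i : Fin g) :
    MvPolynomial (UnkS N g) O :=
  (C x - X (Sum.inr (Sum.inl i))) ^ (n - 1) *
    ∏ i' ∈ Finset.univ.erase i, (C x - X (Sum.inr (Sum.inl i'))) ^ n

lemma pderiv_inl_prodU (N : ℕ) {g : ℕ} (n : ℕ) (x : O) (j : Fin N) :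
    pderiv (Sum.inl j) (prodU N (g := g) n x) = 0 := by
  classical
  rw [prodU, derivation_prod]
  refine Finset.sum_eq_zero fun i _ => ?_
  rw [Derivation.leibniz_pow, map_sub, pderiv_C, pderiv_X_of_ne (by simp)]
  simp

lemma pderiv_c_prodU (N : ℕ) {g : ℕ} (n : ℕ) (x : O) :
    pderiv (Sum.inr (Sum.inr ())) (prodU N (g := g) n x) = 0 := by
  classical
  rw [prodU, derivation_prod]
  refine Finset.sum_eq_zero fun i _ => ?_
  rw [Derivation.leibniz_pow, map_sub, pderiv_C, pderiv_X_of_ne (by simp)]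
  simp

lemma pderiv_a_prodU (N : ℕ) {g : ℕ} (n : ℕ) (x : O) (i : Fin g) :
    pderiv (Sum.inr (Sum.inl i)) (prodU N (g := g) n x) =
      - (n : MvPolynomial (UnkS N g) O) * prodUErase N n x i := by
  classical
  rw [prodU, derivation_prod, Finset.sum_eq_single i]
  · rw [Derivation.leibniz_pow, map_sub, pderiv_C, pderiv_X_self, prodUErase]
    simp only [zero_sub, smul_eq_mul, nsmul_eq_mul, mul_neg, mul_one]
    ring
  · intro i' _ hi'
    rw [Derivation.leibniz_pow, map_sub, pderiv_C, pderiv_X_of_ne (by simpa using hi')]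
    simp
  · intro h
    exact absurd (Finset.mem_univ i) h

lemma pderiv_inr_rename_inl {N g : ℕ} (p : MvPolynomial (Fin N) O) (w : Fin g ⊕ Unit) :
    pderiv (Sum.inr w : UnkS N g) (rename Sum.inl p) = 0 := by
  induction p using MvPolynomial.induction_on with
  | C a => simp
  | add p q hp hq => simp [hp, hq]
  | mul_X p i hp =>
    simp only [map_mul, rename_X, Derivation.leibniz, hp, smul_zero, add_zero]
    rw [pderiv_X_of_ne (by simp)]
    simp

lemma pderiv_inl_rename_inl {N g : ℕ} (p : MvPolynomial (Fin N) O) (j : Fin N) :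
    pderiv (Sum.inl j : UnkS N g) (rename Sum.inl p) = rename Sum.inl (pderiv j p) :=
  pderiv_rename (f := (Sum.inl : Fin N → UnkS N g)) Sum.inl_injective j p

/-- The system. -/
noncomputable def sysF {N g M : ℕ} (n : ℕ) (Φ : Fin (M + 1) → MvPolynomial (Fin N) O)
    (ξ : Fin (M + 1) → O) (j0 : Fin N) (T : O) : EqS M → MvPolynomial (UnkS N g) O :=
  Sum.elim
    (fun l => (∑ e : Fin (M + 1), C (ξ l ^ (e : ℕ)) * rename Sum.inl (Φ e)) -
      X (Sum.inr (Sum.inr ())) * prodU N n (ξ l))
    (fun _ => X (Sum.inl j0) - C T)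

/-- a point of the unknowns -/
def ptS {N g : ℕ} {R : Type*} (t : Fin N → R) (a : Fin g → R) (c : R) : UnkS N g → R :=
  Sum.elim t (Sum.elim a fun _ => c)

lemma ptS_eta {N g : ℕ} {R : Type*} (b : UnkS N g → R) :
    ptS (fun j => b (Sum.inl j)) (fun i => b (Sum.inr (Sum.inl i)))
      (b (Sum.inr (Sum.inr ()))) = b := by
  funext v
  rcases v with j | i | u <;> rfl

lemma eval_prodU {N g : ℕ} (n : ℕ) (x : O) (t : Fin N → O) (a : Fin g → O) (c : O) :
    eval (ptS t a c) (prodU N n x) = (rootProd n a).eval x := by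
  simp [prodU, ptS, eval_rootProd]

lemma eval_prodUErase {N g : ℕ} (n : ℕ) (x : O) (t : Fin N → O) (a : Fin g → O) (c : O)
    (i : Fin g) :
    eval (ptS t a c) (prodUErase N n x i) = (rootProdErase n a i).eval x := by
  simp [prodUErase, ptS, eval_rootProdErase]

lemma eval_rename_inl {N g : ℕ} (p : MvPolynomial (Fin N) O) (t : Fin N → O) (a : Fin g → O)
    (c : O) : eval (ptS t a c) (rename Sum.inl p) = eval t p := by
  rw [eval_rename]
  rfl

lemma eval_sysF_inl {N g M : ℕ} (n : ℕ) (Φ : Fin (M + 1) → MvPolynomial (Fin N) O)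
    (ξ : Fin (M + 1) → O) (j0 : Fin N) (T : O) (t : Fin N → O) (a : Fin g → O) (c : O)
    (l : Fin (M + 1)) :
    eval (ptS t a c) (sysF n Φ ξ j0 T (Sum.inl l)) =
      (polyOfCoeffs M fun e => eval t (Φ e)).eval (ξ l) -
        (Polynomial.C c * rootProd n a).eval (ξ l) := by
  simp only [sysF, Sum.elim_inl, map_sub, map_sum, map_mul, eval_C, eval_rename_inl, eval_prodU,
    eval_X, eval_polyOfCoeffs, Polynomial.eval_mul, Polynomial.eval_C]
  congr 1
  refine Finset.sum_congr rfl fun e _ => ?_
  rw [mul_comm]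

lemma eval_sysF_inr {N g M : ℕ} (n : ℕ) (Φ : Fin (M + 1) → MvPolynomial (Fin N) O)
    (ξ : Fin (M + 1) → O) (j0 : Fin N) (T : O) (t : Fin N → O) (a : Fin g → O) (c : O)
    (u : Unit) :
    eval (ptS t a c) (sysF (g := g) n Φ ξ j0 T (Sum.inr u)) = t j0 - T := by
  simp [sysF, ptS]

/-! ### the partial derivatives of the system -/

lemma pderiv_t_sysF_inl {N g M : ℕ} (n : ℕ) (Φ : Fin (M + 1) → MvPolynomial (Fin N) O)
    (ξ : Fin (M + 1) → O) (j0 : Fin N) (T : O) (l : Fin (M + 1)) (j : Fin N) :
    pderiv (Sum.inl j) (sysF (g := g) n Φ ξ j0 T (Sum.inl l)) =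
      ∑ e : Fin (M + 1), C (ξ l ^ (e : ℕ)) * rename Sum.inl (pderiv j (Φ e)) := by
  simp only [sysF, Sum.elim_inl, map_sub, map_sum, Derivation.leibniz, pderiv_C, smul_zero,
    add_zero, pderiv_inl_rename_inl, pderiv_inl_prodU, smul_eq_mul]
  rw [pderiv_X_of_ne (by simp)]
  simp

lemma pderiv_a_sysF_inl {N g M : ℕ} (n : ℕ) (Φ : Fin (M + 1) → MvPolynomial (Fin N) O)
    (ξ : Fin (M + 1) → O) (j0 : Fin N) (T : O) (l : Fin (M + 1)) (i : Fin g) :
    pderiv (Sum.inr (Sum.inl i)) (sysF (g := g) n Φ ξ j0 T (Sum.inl l)) =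
      X (Sum.inr (Sum.inr ())) * ((n : MvPolynomial (UnkS N g) O) * prodUErase N n (ξ l) i) := by
  simp only [sysF, Sum.elim_inl, map_sub, map_sum, Derivation.leibniz, pderiv_C, smul_zero,
    add_zero, pderiv_inr_rename_inl, pderiv_a_prodU, smul_eq_mul]
  rw [pderiv_X_of_ne (by simp)]
  simp

lemma pderiv_c_sysF_inl {N g M : ℕ} (n : ℕ) (Φ : Fin (M + 1) → MvPolynomial (Fin N) O)
    (ξ : Fin (M + 1) → O) (j0 : Fin N) (T : O) (l : Fin (M + 1)) :
    pderiv (Sum.inr (Sum.inr ())) (sysF (g := g) n Φ ξ j0 T (Sum.inl l)) =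
      - prodU N n (ξ l) := by
  simp only [sysF, Sum.elim_inl, map_sub, map_sum, Derivation.leibniz, pderiv_C, smul_zero,
    add_zero, pderiv_inr_rename_inl, pderiv_c_prodU, smul_eq_mul, pderiv_X_self]
  simp

lemma pderiv_sysF_inr {N g M : ℕ} (n : ℕ) (Φ : Fin (M + 1) → MvPolynomial (Fin N) O)
    (ξ : Fin (M + 1) → O) (j0 : Fin N) (T : O) (u : Unit) (v : UnkS N g) :
    pderiv v (sysF (g := g) n Φ ξ j0 T (Sum.inr u)) = if v = Sum.inl j0 then 1 else 0 := by
  classical
  simp only [sysF, Sum.elim_inr, map_sub, pderiv_C, sub_zero, pderiv_X, Pi.single_apply]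
  by_cases h : v = Sum.inl j0
  · simp [h]
  · rw [if_neg h, if_neg (fun h' => h h'.symm)]

end system


section main

variable {O : Type u} [CommRing O] [IsDomain O] [ValuationRing O] {k : Type*} [Field k]

lemma res_eval {σ : Type*} (res : O →+* k) (a : σ → O) (q : MvPolynomial σ O) :
    res (eval a q) = eval (fun v => res (a v)) (map res q) := by
  rw [MvPolynomial.eval₂_comp, eval_map]
  rfl

/-- elements of `O` with pairwise distinct residues -/
lemma exists_distinct_res [Infinite k] {res : O →+* k} (hres : IsResidueMap res) (n : ℕ) :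
    ∃ ξ : Fin n → O, Function.Injective fun l => res (ξ l) := by
  obtain ⟨s, hs⟩ : ∃ s : Fin n → k, Function.Injective s :=
    ⟨_, (Infinite.natEmbedding k).injective.comp Fin.val_injective⟩
  choose ξ hξ using fun l => hres.surj (s l)
  refine ⟨ξ, ?_⟩
  intro l l' h
  simp only [hξ] at h
  exact hs h

/-- the differential of the system at the residual point, applied to `dv` -/
lemma sum_pderiv_sysF_inl {N g M : ℕ} (n : ℕ) (Φ : Fin (M + 1) → MvPolynomial (Fin N) O)
    (ξ : Fin (M + 1) → O) (j0 : Fin N) (T : O) (res : O →+* k)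
    (t : Fin N → O) (a : Fin g → O) (c : O) (dv : UnkS N g → k) (l : Fin (M + 1)) :
    ∑ v, res (eval (ptS t a c) (pderiv v (sysF n Φ ξ j0 T (Sum.inl l)))) * dv v =
      (polyOfCoeffs M fun e => ∑ j, dv (Sum.inl j) *
          eval (fun j => res (t j)) (pderiv j (map res (Φ e)))).eval (res (ξ l)) +
        (Polynomial.C (res c * n) * ∑ i, Polynomial.C (dv (Sum.inr (Sum.inl i))) *
          rootProdErase n (fun i => res (a i)) i).eval (res (ξ l)) -
        (Polynomial.C (dv (Sum.inr (Sum.inr ()))) *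
          rootProd n (fun i => res (a i))).eval (res (ξ l)) := by
  have e1 : ∀ q : MvPolynomial (Fin N) O, res (eval t q) =
      eval (fun j => res (t j)) (map res q) := fun q => res_eval res t q
  have e2 : ∀ (P : Polynomial O) (x : O), res (P.eval x) = (P.map res).eval (res x) := by
    intro P x
    rw [Polynomial.eval_map, Polynomial.eval₂_hom]
  have e3 : ∀ i, (rootProdErase n a i).map res = rootProdErase n (fun i => res (a i)) i := by
    intro i
    simp [rootProdErase, Polynomial.map_prod]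
  -- the three groups of unknowns
  have hT : ∑ j, res (eval (ptS t a c) (pderiv (Sum.inl j) (sysF n Φ ξ j0 T (Sum.inl l)))) *
        dv (Sum.inl j) =
      (polyOfCoeffs M fun e => ∑ j, dv (Sum.inl j) *
          eval (fun j => res (t j)) (pderiv j (map res (Φ e)))).eval (res (ξ l)) := by
    simp only [pderiv_t_sysF_inl, map_sum, map_mul, eval_C, eval_rename_inl, map_pow, e1,
      pderiv_map, eval_polyOfCoeffs]
    simp_rw [Finset.sum_mul]
    rw [Finset.sum_comm]
    refine Finset.sum_congr rfl fun e _ => Finset.sum_congr rfl fun j _ => ?_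
    ring
  have hA : ∑ i, res (eval (ptS t a c)
        (pderiv (Sum.inr (Sum.inl i)) (sysF n Φ ξ j0 T (Sum.inl l)))) *
        dv (Sum.inr (Sum.inl i)) =
      (Polynomial.C (res c * n) * ∑ i, Polynomial.C (dv (Sum.inr (Sum.inl i))) *
          rootProdErase n (fun i => res (a i)) i).eval (res (ξ l)) := by
    simp only [pderiv_a_sysF_inl, map_mul, eval_X, map_natCast, eval_prodUErase, e2, e3,
      Polynomial.eval_mul, Polynomial.eval_C, Polynomial.eval_finsetSum]
    rw [Finset.mul_sum]
    refine Finset.sum_congr rfl fun i _ => ?_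
    have : ptS t a c (Sum.inr (Sum.inr ())) = c := rfl
    rw [this]
    simp only [Polynomial.eval_natCast]
    ring
  have hC : res (eval (ptS t a c)
        (pderiv (Sum.inr (Sum.inr ())) (sysF n Φ ξ j0 T (Sum.inl l)))) *
        dv (Sum.inr (Sum.inr ())) =
      - (Polynomial.C (dv (Sum.inr (Sum.inr ()))) *
          rootProd n (fun i => res (a i))).eval (res (ξ l)) := by
    simp only [pderiv_c_sysF_inl, map_neg, eval_prodU, e2, map_rootProd, Polynomial.eval_mul,
      Polynomial.eval_C]
    ring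
  rw [Fintype.sum_sum_type, Fintype.sum_sum_type, hT, hA]
  have hU : ∑ u : Unit, res (eval (ptS t a c)
        (pderiv (Sum.inr (Sum.inr u)) (sysF n Φ ξ j0 T (Sum.inl l)))) *
        dv (Sum.inr (Sum.inr u)) =
      - (Polynomial.C (dv (Sum.inr (Sum.inr ()))) *
          rootProd n (fun i => res (a i))).eval (res (ξ l)) := by
    rw [Fintype.sum_unique]
    exact hC
  rw [hU]
  ring

end main


end Fermat.Agent.S27.Lift.H68

namespace Fermat.Agent.S27.Lift.H68

open Polynomial

section pf

variable {k : Type*} [Field k]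

/-- Partial fractions: `dc Π = cn ∑ da_i Π_i` with distinct `α_i` forces `da = 0`, `dc = 0`. -/
lemma partialFrac_zero {g : ℕ} (n : ℕ) (hn0 : n ≠ 0) (α : Fin g → k) (hα : Function.Injective α)
    (cn : k) (hcn : cn ≠ 0) (da : Fin g → k) (dc : k)
    (h : C dc * rootProd n α = C cn * ∑ i, C (da i) * rootProdErase n α i) :
    da = 0 ∧ dc = 0 := by
  classical
  set Pq : k[X] := ∏ i, (X - C (α i)) ^ (n - 1) with hPq
  set A : k[X] := ∏ i, (X - C (α i)) with hA
  have hPq0 : Pq ≠ 0 :=
    (Polynomial.monic_prod_of_monic _ _ fun i _ => (monic_X_sub_C (α i)).pow (n - 1)).ne_zero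
  have hA0 : A ≠ 0 := (Polynomial.monic_prod_of_monic _ _ fun i _ => monic_X_sub_C (α i)).ne_zero
  have h1 : rootProd n α = Pq * A := by
    rw [rootProd, hPq, hA, ← Finset.prod_mul_distrib]
    refine Finset.prod_congr rfl fun i _ => ?_
    rw [← pow_succ, Nat.sub_add_cancel (Nat.pos_of_ne_zero hn0)]
  have h2 : ∀ i, rootProdErase n α i = Pq * ∏ i' ∈ Finset.univ.erase i, (X - C (α i')) := by
    intro i
    rw [rootProdErase, hPq, ← Finset.mul_prod_erase Finset.univ _ (Finset.mem_univ i), mul_assoc,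
      ← Finset.prod_mul_distrib]
    congr 1
    refine Finset.prod_congr rfl fun i' _ => ?_
    rw [← pow_succ, Nat.sub_add_cancel (Nat.pos_of_ne_zero hn0)]
  have h3 : C dc * A = C cn * ∑ i, C (da i) * ∏ i' ∈ Finset.univ.erase i, (X - C (α i')) := by
    apply mul_left_cancel₀ hPq0
    rw [h1] at h
    simp_rw [h2] at h
    calc Pq * (C dc * A) = C dc * (Pq * A) := by ring
      _ = C cn * ∑ i, C (da i) * (Pq * ∏ i' ∈ Finset.univ.erase i, (X - C (α i'))) := h
      _ = Pq * (C cn * ∑ i, C (da i) * ∏ i' ∈ Finset.univ.erase i, (X - C (α i'))) := by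
        rw [Finset.mul_sum, Finset.mul_sum, Finset.mul_sum]
        refine Finset.sum_congr rfl fun i _ => ?_
        ring
  have hda : ∀ i, da i = 0 := by
    intro i
    have h4 := congrArg (Polynomial.eval (α i)) h3
    simp only [eval_mul, eval_C, hA, eval_prod, eval_sub, eval_X, eval_finsetSum] at h4
    rw [Finset.prod_eq_zero (Finset.mem_univ i) (sub_self _), mul_zero,
      Finset.sum_eq_single i] at h4
    · have hprod : ∏ i' ∈ Finset.univ.erase i, (α i - α i') ≠ 0 := by
        rw [Finset.prod_ne_zero_iff]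
        intro i' hi'
        exact sub_ne_zero.mpr fun h' => (Finset.ne_of_mem_erase hi') (hα h').symm
      rcases mul_eq_zero.mp h4.symm with h5 | h5
      · exact absurd h5 hcn
      · rcases mul_eq_zero.mp h5 with h6 | h6
        · exact h6
        · exact absurd h6 hprod
    · intro i' _ hi'
      rw [Finset.prod_eq_zero (Finset.mem_erase.mpr ⟨hi'.symm, Finset.mem_univ i⟩) (sub_self _),
        mul_zero]
    · intro hni
      exact absurd (Finset.mem_univ i) hni
  refine ⟨funext hda, ?_⟩
  simp only [hda, map_zero, zero_mul, Finset.sum_const_zero, mul_zero] at h3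
  rcases mul_eq_zero.mp h3 with h5 | h5
  · simpa using h5
  · exact absurd h5 hA0

end pf

end Fermat.Agent.S27.Lift.H68

namespace Fermat.Agent.S27.Lift.H68

open MvPolynomial

universe u v

section solve

variable {O : Type u} [CommRing O] [IsDomain O] [ValuationRing O] {k : Type*} [Field k]

lemma natDegree_rootProdErase_le {g : ℕ} (n : ℕ) (a : Fin g → k) (i : Fin g) :
    (rootProdErase n a i).natDegree ≤ n * g := by
  classical
  rw [rootProdErase]
  refine (Polynomial.natDegree_mul_le).trans ?_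
  have h1 : ((Polynomial.X - Polynomial.C (a i)) ^ (n - 1)).natDegree ≤ n - 1 := by
    refine (Polynomial.natDegree_pow_le).trans ?_
    rw [Polynomial.natDegree_X_sub_C, mul_one]
  have h2 : (∏ i' ∈ Finset.univ.erase i, (Polynomial.X - Polynomial.C (a i')) ^ n).natDegree
      ≤ n * (g - 1) := by
    refine (Polynomial.natDegree_prod_le _ _).trans ?_
    have : ∀ i' ∈ Finset.univ.erase i,
        ((Polynomial.X - Polynomial.C (a i')) ^ n).natDegree ≤ n := by
      intro i' _
      refine (Polynomial.natDegree_pow_le).trans ?_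
      rw [Polynomial.natDegree_X_sub_C, mul_one]
    refine (Finset.sum_le_sum this).trans ?_
    rw [Finset.sum_const, Finset.card_erase_of_mem (Finset.mem_univ i), Finset.card_univ,
      Fintype.card_fin, smul_eq_mul, mul_comm]
  have hg : 1 ≤ g := Nat.one_le_iff_ne_zero.mpr (by
    rintro rfl
    exact i.elim0)
  calc _ ≤ (n - 1) + n * (g - 1) := Nat.add_le_add h1 h2
    _ ≤ n + n * (g - 1) := Nat.add_le_add_right (Nat.sub_le _ _) _
    _ = n * g := by
      obtain ⟨g', rfl⟩ : ∃ g', g = g' + 1 := ⟨g - 1, by omega⟩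
      simp only [Nat.add_sub_cancel]
      ring

/-- **The abstract norm system** (SOLVE-ALG). -/
theorem solveAlg (K : Type v) [Field K] [Algebra O K] [IsFractionRing O K] [IsAlgClosed K]
    [Infinite k] {res : O →+* k} (hres : IsResidueMap res)
    {N g n M : ℕ} (hn : (n : k) ≠ 0) (hM : M = n * g) (hN : N + g = M + 1)
    (Φ : Fin (M + 1) → MvPolynomial (Fin N) O) (j0 : Fin N) (τ : Fin N → k)
    (α : Fin g → k) (hα : Function.Injective α) (ct : k) (hct : ct ≠ 0)
    (hresid : polyOfCoeffs M (fun e => eval τ (map res (Φ e))) = Polynomial.C ct * rootProd n α)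
    (hjac : ∀ (dt : Fin N → k) (da : Fin g → k) (dc : k), dt j0 = 0 →
      polyOfCoeffs M (fun e => ∑ j, dt j * eval τ (pderiv j (map res (Φ e)))) =
        Polynomial.C dc * rootProd n α -
          Polynomial.C (ct * n) * ∑ i, Polynomial.C (da i) * rootProdErase n α i → dt = 0) :
    ∃ (t : Fin N → O) (a : Fin g → O) (c : O), (∀ j, res (t j) = τ j) ∧
      (∀ i, res (a i) = α i) ∧ res c = ct ∧
      polyOfCoeffs M (fun e => eval t (Φ e)) = Polynomial.C c * rootProd n a := by
  classical
  have hn0 : n ≠ 0 := by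
    rintro rfl
    exact hn Nat.cast_zero
  obtain ⟨ξ, hξ⟩ := exists_distinct_res (O := O) hres (M + 1)
  choose T0 hT0 using fun j => hres.surj (τ j)
  choose A0 hA0 using fun i => hres.surj (α i)
  obtain ⟨C0, hC0⟩ := hres.surj ct
  have hτ : (fun j => res (T0 j)) = τ := funext hT0
  have hαe : (fun i => res (A0 i)) = α := funext hA0
  have hcard : Fintype.card (UnkS N g) = Fintype.card (EqS M) := by
    simp only [Fintype.card_sum, Fintype.card_fin, Fintype.card_unit]
    omega
  have e2 : ∀ (P : Polynomial O) (x : O), res (P.eval x) = (P.map res).eval (res x) := by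
    intro P x
    rw [Polynomial.eval_map, Polynomial.eval₂_hom]
  have h0 : ∀ e, res (eval (ptS T0 A0 C0) (sysF n Φ ξ j0 (T0 j0) e)) = 0 := by
    rintro (l | u)
    · rw [eval_sysF_inl, map_sub, e2, e2, map_polyOfCoeffs, Polynomial.map_mul,
        Polynomial.map_C, map_rootProd, hαe, hC0]
      have : (fun e => res (eval T0 (Φ e))) = fun e => eval τ (map res (Φ e)) := by
        funext e
        rw [res_eval, hτ]
      rw [this, hresid, sub_self]
    · rw [eval_sysF_inr, sub_self, map_zero]
  have hinj : ∀ dv : UnkS N g → k,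
      (∀ e, ∑ v, res (eval (ptS T0 A0 C0) (pderiv v (sysF n Φ ξ j0 (T0 j0) e))) * dv v = 0) →
      dv = 0 := by
    intro dv hdv
    have hj0 : dv (Sum.inl j0) = 0 := by
      have := hdv (Sum.inr ())
      simp only [pderiv_sysF_inr] at this
      rw [Finset.sum_eq_single (Sum.inl j0)] at this
      · simpa using this
      · intro v _ hv
        rw [if_neg hv]
        simp
      · intro h
        exact absurd (Finset.mem_univ _) h
    set dt : Fin N → k := fun j => dv (Sum.inl j) with hdt
    set da : Fin g → k := fun i => dv (Sum.inr (Sum.inl i)) with hda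
    set dc : k := dv (Sum.inr (Sum.inr ())) with hdc
    set Λ : Polynomial k :=
      polyOfCoeffs M (fun e => ∑ j, dt j * eval τ (pderiv j (map res (Φ e)))) with hΛ
    set Δ : Polynomial k := Λ + Polynomial.C (ct * n) * ∑ i, Polynomial.C (da i) *
      rootProdErase n α i - Polynomial.C dc * rootProd n α with hΔ
    have hΔeval : ∀ l, Δ.eval (res (ξ l)) = 0 := by
      intro l
      have := hdv (Sum.inl l)
      rw [sum_pderiv_sysF_inl, hτ, hαe, hC0] at this
      rw [hΔ, Polynomial.eval_sub, Polynomial.eval_add]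
      exact this
    have hΔdeg : Δ.natDegree ≤ M := by
      rw [hΔ]
      refine (Polynomial.natDegree_sub_le _ _).trans (max_le ?_ ?_)
      · refine (Polynomial.natDegree_add_le _ _).trans (max_le ?_ ?_)
        · exact natDegree_polyOfCoeffs_le _ _
        · refine (Polynomial.natDegree_C_mul_le _ _).trans ?_
          refine Polynomial.natDegree_sum_le_of_forall_le _ _ fun i _ => ?_
          refine (Polynomial.natDegree_C_mul_le _ _).trans ?_
          rw [hM]
          exact natDegree_rootProdErase_le n α i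
      · refine (Polynomial.natDegree_C_mul_le _ _).trans ?_
        rw [natDegree_rootProd, hM]
    have hΔ0 : Δ = 0 :=
      Polynomial.eq_zero_of_natDegree_lt_card_of_eval_eq_zero Δ hξ hΔeval (by
        rw [Fintype.card_fin]
        omega)
    have hΛeq : Λ = Polynomial.C dc * rootProd n α -
        Polynomial.C (ct * n) * ∑ i, Polynomial.C (da i) * rootProdErase n α i := by
      have := hΔ0
      rw [hΔ] at this
      linear_combination this
    have hdt0 : dt = 0 := hjac dt da dc hj0 hΛeq
    have hΛ0 : Λ = 0 := by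
      rw [hΛ, hdt0]
      simp [polyOfCoeffs]
    rw [hΛ0] at hΛeq
    have hpf := partialFrac_zero n hn0 α hα (ct * n) (mul_ne_zero hct hn) da dc
      (by linear_combination -hΛeq)
    funext v
    rcases v with j | i | u
    · exact congrFun hdt0 j
    · exact congrFun hpf.1 i
    · exact hpf.2
  obtain ⟨b, hb1, hb2⟩ := mvHensel_of_injective K hres hcard (sysF n Φ ξ j0 (T0 j0))
    (ptS T0 A0 C0) h0 hinj
  refine ⟨fun j => b (Sum.inl j), fun i => b (Sum.inr (Sum.inl i)), b (Sum.inr (Sum.inr ())),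
    fun j => ?_, fun i => ?_, ?_, ?_⟩
  · rw [hb1, ← hT0 j]; rfl
  · rw [hb1, ← hA0 i]; rfl
  · rw [hb1, ← hC0]; rfl
  · have hξO : Function.Injective ξ := fun l l' h => hξ (by simp only [h])
    set t : Fin N → O := fun j => b (Sum.inl j) with ht
    set a : Fin g → O := fun i => b (Sum.inr (Sum.inl i)) with ha
    set c : O := b (Sum.inr (Sum.inr ())) with hc
    set D : Polynomial O := polyOfCoeffs M (fun e => eval t (Φ e)) -
      Polynomial.C c * rootProd n a with hD
    have hDeval : ∀ l, D.eval (ξ l) = 0 := by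
      intro l
      have := hb2 (Sum.inl l)
      rw [← ptS_eta b, eval_sysF_inl] at this
      rw [hD, Polynomial.eval_sub]
      exact this
    have hDdeg : D.natDegree ≤ M := by
      rw [hD]
      refine (Polynomial.natDegree_sub_le _ _).trans (max_le ?_ ?_)
      · exact natDegree_polyOfCoeffs_le _ _
      · refine (Polynomial.natDegree_C_mul_le _ _).trans ?_
        rw [natDegree_rootProd, hM]
    have hD0 : D = 0 :=
      Polynomial.eq_zero_of_natDegree_lt_card_of_eval_eq_zero D hξO hDeval (by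
        rw [Fintype.card_fin]
        omega)
    rw [hD] at hD0
    exact sub_eq_zero.mp hD0

end solve

end Fermat.Agent.S27.Lift.H68
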