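import Fermat.Agent.S27.Lift.H68_MvHensel

/-!
# S27 / LIFT (helper68): MV-HENSEL with an injective reduced Jacobian

`mvHensel_of_injective`: `O` the valuation ring of an algebraically closed field `K`,
`res : O → k` a residue map (surjective, kernel = non-units).  A system `F : Eq → O[X_U]` with as
many equations as unknowns, an approximate solution `a` (`res F(a) = 0`) and INJECTIVE reduced
Jacobian (as a `k`-linear map `k^U → k^Eq`) has an exact solution `b` with `res b = res a`.
-/

set_option linter.style.haveILetI false
set_option linter.unusedSectionVars false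

namespace Fermat.Agent.S27.Lift.H68

open MvPolynomial

universe u v w

variable {O : Type u} [CommRing O] [IsDomain O] [ValuationRing O]
  {k : Type*} [Field k]

/-- A residue map: a surjective ring homomorphism onto a field whose kernel is the maximal
ideal. -/
structure IsResidueMap (res : O →+* k) : Prop where
  surj : Function.Surjective res
  ker : ∀ c : O, res c = 0 ↔ c ∈ IsLocalRing.maximalIdeal O

lemma IsResidueMap.isUnit_iff {res : O →+* k} (h : IsResidueMap res) (c : O) :
    IsUnit c ↔ res c ≠ 0 := by
  rw [Ne, h.ker, IsLocalRing.mem_maximalIdeal, mem_nonunits_iff, not_not]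

lemma IsResidueMap.sub_mem_iff {res : O →+* k} (h : IsResidueMap res) (b a : O) :
    b - a ∈ IsLocalRing.maximalIdeal O ↔ res b = res a := by
  rw [← h.ker, map_sub, sub_eq_zero]

theorem mvHensel_of_injective (K : Type v) [Field K] [Algebra O K] [IsFractionRing O K]
    [IsAlgClosed K] {res : O →+* k} (hres : IsResidueMap res)
    {U Eq : Type w} [Fintype U] [DecidableEq U] [Fintype Eq] [DecidableEq Eq]
    (hcard : Fintype.card U = Fintype.card Eq)
    (F : Eq → MvPolynomial U O) (a : U → O)
    (h0 : ∀ e, res (eval a (F e)) = 0)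
    (hinj : ∀ dv : U → k, (∀ e, ∑ v, res (eval a (pderiv v (F e))) * dv v = 0) → dv = 0) :
    ∃ b : U → O, (∀ v, res (b v) = res (a v)) ∧ ∀ e, eval b (F e) = 0 := by
  classical
  let ε : U ≃ Eq := Fintype.equivOfCardEq hcard
  let f : U → MvPolynomial U O := fun u => F (ε u)
  let J : Matrix U U O := Matrix.of fun i j => eval a (pderiv j (f i))
  have hJ : IsUnit J.det := by
    rw [hres.isUnit_iff, RingHom.map_det]
    intro hdet
    obtain ⟨dv, hdv0, hdv⟩ := Matrix.exists_mulVec_eq_zero_iff.mpr hdet
    apply hdv0
    apply hinj dv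
    intro e
    have := congrFun hdv (ε.symm e)
    simpa [Matrix.mulVec, dotProduct, J, f] using this
  obtain ⟨b, ⟨hb1, hb2⟩, -⟩ := mvHensel' K f a
    (fun i => (hres.ker _).mp (h0 (ε i))) hJ
  refine ⟨b, fun v => (hres.sub_mem_iff _ _).mp (hb1 v), fun e => ?_⟩
  have := hb2 (ε.symm e)
  simpa [f] using this

end Fermat.Agent.S27.Lift.H68
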