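import Fermat.Agent.S27.Lift.H68_MvHenselEtale

/-!
# S27 / LIFT leaf MV-HENSEL (helper68): multivariate Hensel for the valuation ring of an
algebraically closed field

Let `A` be a valuation ring whose fraction field `K` is algebraically closed (any rank, no
completeness).  For a square system `f : σ → A[X_σ]` and `a : σ → A` with `f(a) ∈ 𝔪` and
`det (∂f_i/∂X_j)(a)` a unit there is a unique `b ≡ a mod 𝔪` with `f(b) = 0`.

Proof.  `B = A[X, Y]/(f, YΔ - 1)` is étale over `A`, hence flat (Mathlib `Algebra.Smooth.flat`),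
hence has going-down.  The point `ā` of the special fibre is a prime `Q` over `𝔪`; going-down
gives a prime `P ⊆ Q` over `0`; as `K ⊗ B` is finite over the algebraically closed `K`,
`P` is the kernel of a point `φ : B → K`.  The subring `φ(B) ⊇ A` of `K` has the prime `φ(Q)`
over `𝔪`, so `φ(B) = A` (valuation rings are maximal for domination).
Uniqueness holds over any local ring (formally unramified + Nakayama).
-/

set_option linter.style.haveILetI false
set_option linter.unusedSectionVars false

namespace Fermat.Agent.S27.Lift.H68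

open MvPolynomial TensorProduct

universe u v w

/-- A prime of an étale `A`-algebra lying over `0` is the kernel of a point with values in the
algebraically closed fraction field. -/
theorem exists_algHom_ker_eq_of_etale
    {A K B : Type*} [CommRing A] [IsDomain A] [Field K] [Algebra A K] [IsFractionRing A K]
    [IsAlgClosed K] [CommRing B] [Algebra A B] [Algebra.Etale A B]
    (P : Ideal B) [P.IsPrime] (hP : P.under A = ⊥) :
    ∃ φ : B →ₐ[A] K, RingHom.ker (φ : B →+* K) = P := by
  classical
  let C := B ⧸ P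
  let L := FractionRing C
  have hAC : Function.Injective (algebraMap A C) := by
    rw [injective_iff_map_eq_zero]
    intro x hx
    have : x ∈ P.under A := by
      rw [Ideal.under_def, Ideal.mem_comap]
      exact Ideal.Quotient.eq_zero_iff_mem.mp hx
    rw [hP] at this
    exact this
  have hAL : Function.Injective (algebraMap A L) := by
    rw [IsScalarTower.algebraMap_eq A C L]
    exact (IsFractionRing.injective C L).comp hAC
  letI : Algebra K L := (IsFractionRing.lift hAL).toAlgebra
  haveI : IsScalarTower A K L := IsScalarTower.of_algebraMap_eq fun x => by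
    rw [RingHom.algebraMap_toAlgebra, IsFractionRing.lift_algebraMap]
  let g : B →ₐ[A] L := (IsScalarTower.toAlgHom A C L).comp (Ideal.Quotient.mkₐ A P)
  have hg : ∀ b, g b = 0 ↔ b ∈ P := by
    intro b
    change algebraMap C L (Ideal.Quotient.mk P b) = 0 ↔ _
    rw [map_eq_zero_iff _ (IsFractionRing.injective C L), Ideal.Quotient.eq_zero_iff_mem]
  let ψ : K ⊗[A] B →ₐ[K] L :=
    Algebra.TensorProduct.lift (Algebra.ofId K L) g (fun _ _ => Commute.all _ _)
  haveI : Module.Finite K (K ⊗[A] B) := Algebra.FormallyUnramified.finite_of_free K (K ⊗[A] B)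
  haveI : Module.Finite K ψ.range := by
    have := Module.Finite.range ψ.toLinearMap
    exact this
  haveI : Algebra.IsIntegral K ψ.range := Algebra.IsIntegral.of_finite K _
  have hbij : Function.Bijective (algebraMap K ψ.range) :=
    IsAlgClosed.algebraMap_bijective_of_isIntegral
  let e : K ≃ₐ[K] ψ.range := AlgEquiv.ofBijective (Algebra.ofId K ψ.range) hbij
  let φ : B →ₐ[A] K :=
    ((e.symm.toAlgHom.comp ψ.rangeRestrict).restrictScalars A).comp
      (Algebra.TensorProduct.includeRight : B →ₐ[A] K ⊗[A] B)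
  have hφ : ∀ b, algebraMap K L (φ b) = g b := by
    intro b
    have h1 : (algebraMap K ψ.range (φ b) : L) = algebraMap K L (φ b) := rfl
    have h2 : algebraMap K ψ.range (φ b) = ψ.rangeRestrict (1 ⊗ₜ b) := by
      change e (e.symm (ψ.rangeRestrict (1 ⊗ₜ b))) = _
      exact e.apply_symm_apply _
    rw [← h1, h2]
    change ψ (1 ⊗ₜ b) = g b
    simp [ψ]
  refine ⟨φ, ?_⟩
  ext b
  rw [RingHom.mem_ker, ← hg b, ← hφ b]
  exact (map_eq_zero_iff _ (algebraMap K L).injective).symm


section uniq

variable {A : Type u} [CommRing A] {σ : Type w} [Fintype σ] [DecidableEq σ]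

lemma algebraMap_eval {R : Type*} [CommRing R] [Algebra A R] (c : σ → A) (p : MvPolynomial σ A) :
    algebraMap A R (eval c p) = aeval (fun i => algebraMap A R (c i)) p := by
  rw [MvPolynomial.eval₂_comp, aeval_def]
  rfl

lemma eval_sub_mem_of_sub_mem (I : Ideal A) (p : MvPolynomial σ A) (b b' : σ → A)
    (h : ∀ i, b' i - b i ∈ I) : eval b' p - eval b p ∈ I := by
  rw [← Ideal.Quotient.eq_zero_iff_mem, map_sub, sub_eq_zero]
  have h1 : ∀ c : σ → A, Ideal.Quotient.mk I (eval c p) =
      aeval (fun i => algebraMap A (A ⧸ I) (c i)) p := fun c => algebraMap_eval c p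
  rw [h1, h1]
  have : (fun i => algebraMap A (A ⧸ I) (b' i)) = fun i => algebraMap A (A ⧸ I) (b i) :=
    funext fun i => Ideal.Quotient.eq.mpr (h i)
  rw [this]

variable [IsLocalRing A]

/-- Uniqueness in multivariate Hensel (any local ring). -/
theorem mvHensel_unique (f : σ → MvPolynomial σ A) (b b' : σ → A)
    (hb : ∀ i, eval b (f i) = 0) (hb' : ∀ i, eval b' (f i) = 0)
    (hJ : IsUnit (eval b (jacDet f)))
    (hbb : ∀ i, b' i - b i ∈ IsLocalRing.maximalIdeal A) : b' = b := by
  classical
  have hJ' : IsUnit (eval b' (jacDet f)) := by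
    by_contra hnu
    have h1 : eval b' (jacDet f) ∈ IsLocalRing.maximalIdeal A :=
      (IsLocalRing.mem_maximalIdeal _).mpr hnu
    have h2 := eval_sub_mem_of_sub_mem (IsLocalRing.maximalIdeal A) (jacDet f) b b' hbb
    have h3 : eval b (jacDet f) ∈ IsLocalRing.maximalIdeal A := by
      have := (IsLocalRing.maximalIdeal A).sub_mem h1 h2
      simpa using this
    exact (IsLocalRing.mem_maximalIdeal _).mp h3 hJ
  obtain ⟨y, hy⟩ := hJ.exists_left_inv
  obtain ⟨y', hy'⟩ := hJ'.exists_left_inv
  let I : Ideal A := Ideal.span (Set.range fun i => b' i - b i)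
  have hI𝔪 : I ≤ IsLocalRing.maximalIdeal A := by
    rw [Ideal.span_le]
    rintro _ ⟨i, rfl⟩
    exact hbb i
  have hIfg : I.FG := by
    refine ⟨(Set.finite_range fun i => b' i - b i).toFinset, ?_⟩
    rw [Set.Finite.coe_toFinset]
  let φ : RingB f →ₐ[A] A := liftB f b y (by simpa using hb) (by simpa using hy)
  let φ' : RingB f →ₐ[A] A := liftB f b' y' (by simpa using hb') (by simpa using hy')
  let R := A ⧸ I ^ 2
  let g : RingB f →ₐ[A] R := (Ideal.Quotient.mkₐ A (I ^ 2)).comp φ
  let g' : RingB f →ₐ[A] R := (Ideal.Quotient.mkₐ A (I ^ 2)).comp φ'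
  have hle : I ^ 2 ≤ I := Ideal.pow_le_self (by norm_num)
  have hnil : IsNilpotent (RingHom.ker (Ideal.Quotient.factor hle)) := by
    refine ⟨2, ?_⟩
    rw [Ideal.Quotient.factor_ker, ← Ideal.map_pow, Ideal.zero_eq_bot, Ideal.map_quotient_self]
  have hgg : g = g' := by
    apply Algebra.FormallyUnramified.ext' (Ideal.Quotient.factor hle) hnil
    intro x
    have key : (Ideal.Quotient.mkₐ A I).comp φ = (Ideal.Quotient.mkₐ A I).comp φ' := by
      apply algHom_ext_X
      intro i
      simp only [AlgHom.comp_apply, φ, φ', liftB_X, Ideal.Quotient.mkₐ_eq_mk]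
      refine (Ideal.Quotient.eq.mpr ?_).symm
      exact Ideal.subset_span ⟨i, rfl⟩
    have := congrArg (fun h : RingB f →ₐ[A] A ⧸ I => h x) key
    simpa [g, g'] using this
  have hsq : I ≤ I ^ 2 := by
    rw [Ideal.span_le]
    rintro _ ⟨i, rfl⟩
    have := congrArg (fun h : RingB f →ₐ[A] R => h (mkB f (X (Sum.inl i)))) hgg
    simp only [g, g', AlgHom.comp_apply, φ, φ', liftB_X, Ideal.Quotient.mkₐ_eq_mk] at this
    exact Ideal.Quotient.eq.mp this.symm
  have hbot : I = ⊥ := by
    apply Submodule.eq_bot_of_le_smul_of_le_jacobson_bot I I hIfg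
    · rw [smul_eq_mul, ← pow_two]
      exact hsq
    · rw [IsLocalRing.jacobson_eq_maximalIdeal _ bot_ne_top]
      exact hI𝔪
  funext i
  have : b' i - b i ∈ I := Ideal.subset_span ⟨i, rfl⟩
  rw [hbot, Ideal.mem_bot, sub_eq_zero] at this
  exact this

end uniq


section exist

variable {A : Type u} [CommRing A] [IsDomain A] [ValuationRing A]
  {K : Type v} [Field K] [Algebra A K] [IsFractionRing A K] [IsAlgClosed K]
  {σ : Type w} [Fintype σ] [DecidableEq σ]

/-- Existence in multivariate Hensel for the valuation ring of an algebraically closed field. -/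
theorem mvHensel_exists (K : Type v) [Field K] [Algebra A K] [IsFractionRing A K] [IsAlgClosed K]
    (f : σ → MvPolynomial σ A) (a : σ → A)
    (h0 : ∀ i, eval a (f i) ∈ IsLocalRing.maximalIdeal A)
    (hJ : IsUnit (eval a (jacDet f))) :
    ∃ b : σ → A, (∀ i, b i - a i ∈ IsLocalRing.maximalIdeal A) ∧ ∀ i, eval b (f i) = 0 := by
  classical
  let k := IsLocalRing.ResidueField A
  let ā : σ → k := fun i => algebraMap A k (a i)
  have hres : ∀ x : A, algebraMap A k x = 0 ↔ x ∈ IsLocalRing.maximalIdeal A := fun x =>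
    IsLocalRing.residue_eq_zero_iff x
  have hā : ∀ i, aeval ā (f i) = 0 := by
    intro i
    rw [← algebraMap_eval, hres]
    exact h0 i
  have hΔ : aeval ā (jacDet f) ≠ 0 := by
    rw [← algebraMap_eval, Ne, hres]
    exact fun h => (IsLocalRing.mem_maximalIdeal _).mp h hJ
  let ev : RingB f →ₐ[A] k := liftB f ā (aeval ā (jacDet f))⁻¹ hā (inv_mul_cancel₀ hΔ)
  let Q : Ideal (RingB f) := RingHom.ker (ev : RingB f →+* k)
  haveI hQp : Q.IsPrime := RingHom.ker_isPrime _
  have hQ : ∀ x, x ∈ Q ↔ ev x = 0 := fun x => RingHom.mem_ker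
  have hQu : Q.under A = IsLocalRing.maximalIdeal A := by
    ext x
    rw [Ideal.under_def, Ideal.mem_comap, hQ, AlgHom.commutes, hres]
  haveI : Q.LiesOver (IsLocalRing.maximalIdeal A) := ⟨hQu.symm⟩
  obtain ⟨P, hPQ, hPp, hPo⟩ := Ideal.exists_ideal_le_liesOver_of_le (p := (⊥ : Ideal A))
    (q := IsLocalRing.maximalIdeal A) Q bot_le
  have hP : P.under A = ⊥ := hPo.over.symm
  obtain ⟨φ, hφ⟩ := exists_algHom_ker_eq_of_etale (K := K) P hP
  have hφQ : ∀ x, φ x = 0 → ev x = 0 := by
    intro x hx
    have : x ∈ P := by rw [← hφ]; exact hx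
    exact (hQ x).mp (hPQ this)
  have hint : ∀ x : RingB f, ∃ c : A, φ x = algebraMap A K c := by
    intro x
    rcases ValuationRing.isInteger_or_isInteger A (φ x) with ⟨c, hc⟩ | ⟨m, hm⟩
    · exact ⟨c, hc.symm⟩
    · by_cases hx0 : φ x = 0
      · exact ⟨0, by rw [hx0, map_zero]⟩
      by_cases hmu : IsUnit m
      · obtain ⟨m', hm'⟩ := hmu.exists_right_inv
        refine ⟨m', ?_⟩
        have h1 : algebraMap A K m * algebraMap A K m' = 1 := by
          rw [← map_mul, hm', map_one]
        rw [hm] at h1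
        have h2 : φ x * ((φ x)⁻¹ * algebraMap A K m') = φ x := by rw [h1, mul_one]
        rw [← mul_assoc, mul_inv_cancel₀ hx0, one_mul] at h2
        exact h2.symm
      · exfalso
        have hmm : m ∈ IsLocalRing.maximalIdeal A := (IsLocalRing.mem_maximalIdeal _).mpr hmu
        have h1 : φ (x * algebraMap A (RingB f) m - 1) = 0 := by
          rw [map_sub, map_mul, AlgHom.commutes, hm, mul_inv_cancel₀ hx0, map_one, sub_self]
        have h2 := hφQ _ h1
        rw [map_sub, map_mul, AlgHom.commutes, (hres m).mpr hmm, mul_zero, map_one,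
          zero_sub, neg_eq_zero] at h2
        exact one_ne_zero h2
  choose c hc using hint
  let b : σ → A := fun i => c (mkB f (X (Sum.inl i)))
  have hinj : Function.Injective (algebraMap A K) := IsFractionRing.injective A K
  refine ⟨b, fun i => ?_, fun j => ?_⟩
  · rw [← hres, map_sub, sub_eq_zero]
    have h1 : φ (mkB f (X (Sum.inl i)) - algebraMap A (RingB f) (b i)) = 0 := by
      rw [map_sub, AlgHom.commutes, hc, sub_self]
    have h2 := hφQ _ h1
    rw [map_sub, AlgHom.commutes, sub_eq_zero] at h2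
    rw [← h2]
    exact liftB_X f ā _ hā _ i
  · apply hinj
    rw [map_zero, algebraMap_eval]
    have : (fun i => algebraMap A K (b i)) = fun i => φ (mkB f (X (Sum.inl i))) :=
      funext fun i => (hc _).symm
    rw [this]
    exact aeval_f_of_algHom f φ j

end exist


section main

variable {A : Type u} [CommRing A] [IsDomain A] [ValuationRing A]
  {σ : Type w} [Fintype σ] [DecidableEq σ]

/-- **Multivariate Hensel** for the valuation ring `A` of an algebraically closed field `K`. -/
theorem mvHensel (K : Type v) [Field K] [Algebra A K] [IsFractionRing A K] [IsAlgClosed K]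
    (f : σ → MvPolynomial σ A) (a : σ → A)
    (h0 : ∀ i, eval a (f i) ∈ IsLocalRing.maximalIdeal A)
    (hJ : IsUnit (eval a (jacDet f))) :
    ∃! b : σ → A, (∀ i, b i - a i ∈ IsLocalRing.maximalIdeal A) ∧ ∀ i, eval b (f i) = 0 := by
  obtain ⟨b, hba, hb⟩ := mvHensel_exists K f a h0 hJ
  have hJb : IsUnit (eval b (jacDet f)) := by
    by_contra hnu
    have h1 : eval b (jacDet f) ∈ IsLocalRing.maximalIdeal A :=
      (IsLocalRing.mem_maximalIdeal _).mpr hnu
    have h2 := eval_sub_mem_of_sub_mem (IsLocalRing.maximalIdeal A) (jacDet f) a b hba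
    have h3 : eval a (jacDet f) ∈ IsLocalRing.maximalIdeal A := by
      have := (IsLocalRing.maximalIdeal A).sub_mem h1 h2
      simpa using this
    exact (IsLocalRing.mem_maximalIdeal _).mp h3 hJ
  refine ⟨b, ⟨hba, hb⟩, ?_⟩
  rintro b' ⟨hb'a, hb'⟩
  refine mvHensel_unique f b b' hb hb' hJb fun i => ?_
  have := (IsLocalRing.maximalIdeal A).sub_mem (hb'a i) (hba i)
  simpa using this

lemma eval_jacDet (f : σ → MvPolynomial σ A) (a : σ → A) :
    eval a (jacDet f) = Matrix.det (Matrix.of fun i j => eval a (pderiv j (f i))) := by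
  rw [jacDet, RingHom.map_det]
  rfl

/-- Matrix form of `mvHensel`. -/
theorem mvHensel' (K : Type v) [Field K] [Algebra A K] [IsFractionRing A K] [IsAlgClosed K]
    (f : σ → MvPolynomial σ A) (a : σ → A)
    (h0 : ∀ i, eval a (f i) ∈ IsLocalRing.maximalIdeal A)
    (hJ : IsUnit (Matrix.det (Matrix.of fun i j => eval a (pderiv j (f i))))) :
    ∃! b : σ → A, (∀ i, b i - a i ∈ IsLocalRing.maximalIdeal A) ∧ ∀ i, eval b (f i) = 0 :=
  mvHensel K f a h0 (by rw [eval_jacDet]; exact hJ)

end main

/-- The statement MV-HENSEL of the S27 LIFT package (universe-polymorphic). -/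
def Stmt_MvHensel : Prop :=
  ∀ (A : Type u) (K : Type v) [CommRing A] [IsDomain A] [ValuationRing A] [Field K] [Algebra A K]
    [IsFractionRing A K] [IsAlgClosed K] (σ : Type w) [Fintype σ] [DecidableEq σ]
    (f : σ → MvPolynomial σ A) (a : σ → A),
    (∀ i, eval a (f i) ∈ IsLocalRing.maximalIdeal A) →
    IsUnit (Matrix.det (Matrix.of fun i j => eval a (pderiv j (f i)))) →
    ∃! b : σ → A, (∀ i, b i - a i ∈ IsLocalRing.maximalIdeal A) ∧ ∀ i, eval b (f i) = 0

theorem stmt_MvHensel : Stmt_MvHensel.{u, v, w} :=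
  fun _ K _ _ _ _ _ _ _ _ _ _ f a h0 hJ => mvHensel' K f a h0 hJ

/-- MV-HENSEL for a `ValuationSubring` of an algebraically closed field. -/
theorem mvHensel_valuationSubring {K : Type v} [Field K] [IsAlgClosed K] (A : ValuationSubring K)
    {σ : Type w} [Fintype σ] [DecidableEq σ] (f : σ → MvPolynomial σ A) (a : σ → A)
    (h0 : ∀ i, eval a (f i) ∈ IsLocalRing.maximalIdeal A)
    (hJ : IsUnit (Matrix.det (Matrix.of fun i j => eval a (pderiv j (f i))))) :
    ∃! b : σ → A, (∀ i, b i - a i ∈ IsLocalRing.maximalIdeal A) ∧ ∀ i, eval b (f i) = 0 :=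
  mvHensel' K f a h0 hJ

end Fermat.Agent.S27.Lift.H68
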