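import Mathlib

/-!
# S27 / LIFT leaf MV-HENSEL, part 1 (helper68): the standard étale algebra of a square system

For a square polynomial system `f : σ → MvPolynomial σ A` with Jacobian determinant `Δ`, the
algebra `B = A[X_σ, Y] / (f, Y Δ - 1)` is étale over `A` (Mathlib: submersive presentation of
relative dimension `0`).  Algebra maps `B → R` are the solutions `b` of `f = 0` in `R` with
`Δ(b)` a unit.
-/

set_option linter.style.haveILetI false
set_option linter.unusedSectionVars false

namespace Fermat.Agent.S27.Lift.H68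

open MvPolynomial

universe u w

variable {A : Type u} [CommRing A] {σ : Type w} [Fintype σ] [DecidableEq σ]

/-- The Jacobian matrix `(∂ f_i / ∂ X_j)` of a square system. -/
noncomputable def jacMat (f : σ → MvPolynomial σ A) : Matrix σ σ (MvPolynomial σ A) :=
  Matrix.of fun i j => pderiv j (f i)

/-- The Jacobian determinant of a square system. -/
noncomputable def jacDet (f : σ → MvPolynomial σ A) : MvPolynomial σ A :=
  (jacMat f).det

/-- The relations `f_i` (in the variables `inl`) and `Y Δ - 1` (`Y = X (inr ())`). -/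
noncomputable def relB (f : σ → MvPolynomial σ A) : σ ⊕ Unit → MvPolynomial (σ ⊕ Unit) A :=
  Sum.elim (fun i => rename Sum.inl (f i))
    (fun _ => X (Sum.inr ()) * rename Sum.inl (jacDet f) - 1)

/-- The standard étale algebra `A[X_σ, Y] / (f, Y Δ - 1)` of a square system. -/
abbrev RingB (f : σ → MvPolynomial σ A) : Type (max u w) :=
  MvPolynomial (σ ⊕ Unit) A ⧸ Ideal.span (Set.range (relB f))

lemma pderiv_inl_rename (p : MvPolynomial σ A) (i : σ) :
    pderiv (Sum.inl i : σ ⊕ Unit) (rename Sum.inl p) = rename Sum.inl (pderiv i p) := by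
  exact (pderiv_rename (f := (Sum.inl : σ → σ ⊕ Unit)) Sum.inl_injective i p)

lemma pderiv_inr_rename (p : MvPolynomial σ A) (u : Unit) :
    pderiv (Sum.inr u : σ ⊕ Unit) (rename Sum.inl p) = 0 := by
  induction p using MvPolynomial.induction_on with
  | C a => simp
  | add p q hp hq => simp [hp, hq]
  | mul_X p i hp =>
    simp only [map_mul, rename_X, Derivation.leibniz, hp, smul_zero, add_zero]
    rw [pderiv_X_of_ne (by simp)]
    simp

/-- The naive pre-submersive presentation of `RingB f`. -/
noncomputable def preB (f : σ → MvPolynomial σ A) :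
    Algebra.PreSubmersivePresentation A (RingB f) (σ ⊕ Unit) (σ ⊕ Unit) :=
  Algebra.PreSubmersivePresentation.naive (v := relB f) id Function.injective_id

lemma preB_jacobiMatrix (f : σ → MvPolynomial σ A) (i j : σ ⊕ Unit) :
    (preB f).jacobiMatrix i j = pderiv i (relB f j) :=
  Algebra.PreSubmersivePresentation.jacobiMatrix_naive ..

lemma preB_jacobiMatrix_eq (f : σ → MvPolynomial σ A) :
    (preB f).jacobiMatrix =
      Matrix.fromBlocks ((jacMat f).transpose.map (rename (Sum.inl : σ → σ ⊕ Unit)))
        (Matrix.of fun i _ => pderiv (Sum.inl i) (relB f (Sum.inr ()))) 0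
        (Matrix.of fun _ _ => rename Sum.inl (jacDet f)) := by
  refine Matrix.ext fun i j => ?_
  rw [preB_jacobiMatrix]
  rcases i with i | u <;> rcases j with j | v
  · simp [relB, jacMat, pderiv_inl_rename]
  · simp
  · simp [relB, pderiv_inr_rename]
  · simp [relB, pderiv_inr_rename]

lemma preB_jacobiMatrix_det (f : σ → MvPolynomial σ A) :
    (preB f).jacobiMatrix.det =
      rename Sum.inl (jacDet f) * rename Sum.inl (jacDet f) := by
  rw [preB_jacobiMatrix_eq, Matrix.det_fromBlocks_zero₂₁]
  congr 1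
  · have := (RingHom.map_det (rename (Sum.inl : σ → σ ⊕ Unit)).toRingHom (jacMat f).transpose)
    rw [Matrix.det_transpose] at this
    exact this.symm
  · rw [Matrix.det_unique]
    rfl

/-- The class of a polynomial in `RingB f`. -/
noncomputable def mkB (f : σ → MvPolynomial σ A) : MvPolynomial (σ ⊕ Unit) A →ₐ[A] RingB f :=
  Ideal.Quotient.mkₐ A _

lemma mkB_surjective (f : σ → MvPolynomial σ A) : Function.Surjective (mkB f) :=
  Ideal.Quotient.mk_surjective

lemma mkB_relB (f : σ → MvPolynomial σ A) (j : σ ⊕ Unit) : mkB f (relB f j) = 0 :=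
  Ideal.Quotient.eq_zero_iff_mem.mpr (Ideal.subset_span ⟨j, rfl⟩)

lemma mkB_f (f : σ → MvPolynomial σ A) (i : σ) : mkB f (rename Sum.inl (f i)) = 0 :=
  mkB_relB f (Sum.inl i)

lemma mkB_Y_mul (f : σ → MvPolynomial σ A) :
    mkB f (X (Sum.inr ())) * mkB f (rename Sum.inl (jacDet f)) = 1 := by
  have h := mkB_relB f (Sum.inr ())
  simp only [relB, Sum.elim_inr, map_sub, map_mul, map_one] at h
  exact sub_eq_zero.mp h

lemma isUnit_mkB_jacDet (f : σ → MvPolynomial σ A) :
    IsUnit (mkB f (rename Sum.inl (jacDet f))) :=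
  IsUnit.of_mul_eq_one _ (by rw [mul_comm]; exact mkB_Y_mul f)

lemma preB_algebraMap (f : σ → MvPolynomial σ A) (p : MvPolynomial (σ ⊕ Unit) A) :
    algebraMap (preB f).Ring (RingB f) p = mkB f p := by
  change _ = Ideal.Quotient.mk _ p
  rw [Algebra.Generators.algebraMap_apply]
  simp [preB, Algebra.PreSubmersivePresentation.naive, Algebra.Presentation.naive,
    Algebra.Generators.naive]
  induction p using MvPolynomial.induction_on with
  | C a => simp; rfl
  | add p q hp hq => simp [hp, hq]
  | mul_X p i hp => simp [hp]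

/-- The submersive presentation of `RingB f`. -/
noncomputable def subB (f : σ → MvPolynomial σ A) :
    Algebra.SubmersivePresentation A (RingB f) (σ ⊕ Unit) (σ ⊕ Unit) where
  __ := preB f
  jacobian_isUnit := by
    rw [Algebra.PreSubmersivePresentation.jacobian_eq_jacobiMatrix_det, preB_jacobiMatrix_det,
      preB_algebraMap, map_mul]
    exact (isUnit_mkB_jacDet f).mul (isUnit_mkB_jacDet f)

/-- `RingB f` is étale over `A`. -/
instance instEtaleRingB (f : σ → MvPolynomial σ A) : Algebra.Etale A (RingB f) := by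
  haveI : Algebra.IsStandardSmoothOfRelativeDimension 0 A (RingB f) :=
    (subB f).isStandardSmoothOfRelativeDimension (by
      simp [Algebra.Presentation.dimension])
  infer_instance

section lift

variable {R : Type*} [CommRing R] [Algebra A R]

/-- The evaluation `A[X_σ, Y] → R` at `X = b`, `Y = y`. -/
noncomputable def evalXY (b : σ → R) (y : R) : MvPolynomial (σ ⊕ Unit) A →ₐ[A] R :=
  aeval (Sum.elim b fun _ => y)

lemma evalXY_rename (b : σ → R) (y : R) (p : MvPolynomial σ A) :
    evalXY b y (rename Sum.inl p) = aeval b p := by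
  simp [evalXY, aeval_rename, Function.comp_def]

lemma evalXY_X_inl (b : σ → R) (y : R) (i : σ) :
    evalXY b y (X (Sum.inl i) : MvPolynomial (σ ⊕ Unit) A) = b i := by
  simp [evalXY]

lemma evalXY_X_inr (b : σ → R) (y : R) (u : Unit) :
    evalXY b y (X (Sum.inr u) : MvPolynomial (σ ⊕ Unit) A) = y := by
  simp [evalXY]

/-- A solution `b` of `f = 0` in `R` together with an inverse `y` of `Δ(b)` gives an algebra map
`RingB f → R`. -/
noncomputable def liftB (f : σ → MvPolynomial σ A) (b : σ → R) (y : R)
    (hb : ∀ i, aeval b (f i) = 0) (hy : y * aeval b (jacDet f) = 1) : RingB f →ₐ[A] R :=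
  Ideal.Quotient.liftₐ _ (evalXY b y) (by
    intro p hp
    have hle : Ideal.span (Set.range (relB f)) ≤ RingHom.ker (evalXY (A := A) b y) := by
      rw [Ideal.span_le]
      rintro _ ⟨j, rfl⟩
      rcases j with j | u
      · simp [relB, evalXY_rename, hb]
      · simp [relB, evalXY_rename, evalXY_X_inr, hy]
    exact hle hp)

lemma liftB_mkB (f : σ → MvPolynomial σ A) (b : σ → R) (y : R)
    (hb : ∀ i, aeval b (f i) = 0) (hy : y * aeval b (jacDet f) = 1)
    (p : MvPolynomial (σ ⊕ Unit) A) : liftB f b y hb hy (mkB f p) = evalXY b y p :=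
  rfl

lemma liftB_X (f : σ → MvPolynomial σ A) (b : σ → R) (y : R)
    (hb : ∀ i, aeval b (f i) = 0) (hy : y * aeval b (jacDet f) = 1) (i : σ) :
    liftB f b y hb hy (mkB f (X (Sum.inl i))) = b i := by
  rw [liftB_mkB, evalXY_X_inl]

/-- Conversely an algebra map `φ : RingB f → R` gives the solution `φ (X_i)`. -/
lemma aeval_of_algHom (f : σ → MvPolynomial σ A) (φ : RingB f →ₐ[A] R) (p : MvPolynomial σ A) :
    aeval (fun i => φ (mkB f (X (Sum.inl i)))) p = φ (mkB f (rename Sum.inl p)) := by
  induction p using MvPolynomial.induction_on with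
  | C a => simp
  | add p q hp hq => simp [hp, hq]
  | mul_X p i hp => simp [hp]

lemma aeval_f_of_algHom (f : σ → MvPolynomial σ A) (φ : RingB f →ₐ[A] R) (j : σ) :
    aeval (fun i => φ (mkB f (X (Sum.inl i)))) (f j) = 0 := by
  rw [aeval_of_algHom, mkB_f, map_zero]

/-- Two algebra maps out of `RingB f` agreeing on the `X_i` are equal. -/
lemma algHom_ext_X (f : σ → MvPolynomial σ A) (φ ψ : RingB f →ₐ[A] R)
    (h : ∀ i, φ (mkB f (X (Sum.inl i))) = ψ (mkB f (X (Sum.inl i)))) : φ = ψ := by
  have hJ : φ (mkB f (rename Sum.inl (jacDet f))) = ψ (mkB f (rename Sum.inl (jacDet f))) := by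
    rw [← aeval_of_algHom, ← aeval_of_algHom]
    have hfun : (fun i => φ (mkB f (X (Sum.inl i)))) = fun i => ψ (mkB f (X (Sum.inl i))) :=
      funext h
    rw [hfun]
  have hY : φ (mkB f (X (Sum.inr ()))) = ψ (mkB f (X (Sum.inr ()))) := by
    have h1 : φ (mkB f (X (Sum.inr ()))) * φ (mkB f (rename Sum.inl (jacDet f))) = 1 := by
      rw [← map_mul, mkB_Y_mul, map_one]
    have h2 : ψ (mkB f (X (Sum.inr ()))) * ψ (mkB f (rename Sum.inl (jacDet f))) = 1 := by
      rw [← map_mul, mkB_Y_mul, map_one]
    calc φ (mkB f (X (Sum.inr ())))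
        = φ (mkB f (X (Sum.inr ()))) *
            (ψ (mkB f (X (Sum.inr ()))) * ψ (mkB f (rename Sum.inl (jacDet f)))) := by
          rw [h2, mul_one]
      _ = (φ (mkB f (X (Sum.inr ()))) * φ (mkB f (rename Sum.inl (jacDet f)))) *
            ψ (mkB f (X (Sum.inr ()))) := by rw [hJ]; ring
      _ = ψ (mkB f (X (Sum.inr ()))) := by rw [h1, one_mul]
  have : φ.comp (mkB f) = ψ.comp (mkB f) := by
    apply MvPolynomial.algHom_ext
    rintro (i | u)
    · exact h i
    · exact hY
  ext x
  obtain ⟨p, rfl⟩ := mkB_surjective f x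
  exact congrArg (fun g : MvPolynomial (σ ⊕ Unit) A →ₐ[A] R => g p) this

end lift

end Fermat.Agent.S27.Lift.H68
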